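import Mathlib

/-!
# Riemann in characteristic `p`, node N4 (pure Mathlib): `[F : k(s^p)] = p [F : k(s)]`
Architect + owner: helper183.

* `notMem_adjoin_pow`: `s` transcendental ⟹ `s ∉ k⟮s ^ p⟯`.  Otherwise
  (`IntermediateField.mem_adjoin_simple_iff`) `s = f(s^p) / g(s^p)` with `g(s^p) ≠ 0`, so the
  polynomial `X * expand k p g - expand k p f` kills `s` (`Polynomial.expand_aeval`), so it is `0`
  (transcendence).  Take derivatives: `derivative (expand k p f) = 0` in characteristic `p`
  (`Polynomial.derivative_expand`, `p = 0` in `k`), so `expand k p g = 0`, `g = 0`: contradiction.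
* `finrank_adjoin_pow`: put `L := k⟮s ^ p⟯`.  `X ^ p - C ⟨s ^ p, _⟩ : L[X]` is irreducible
  (`X_pow_sub_C_irreducible_of_prime`; a root `b ∈ L` would be `s` by `frobenius_inj`), so it is
  `minpoly L s`, `finrank L L⟮s⟯ = p`.  `Module.finrank_mul_finrank L L⟮s⟯ F`.  Finally
  `L⟮s⟯` and `k⟮s⟯` have the same elements (`IntermediateField.adjoin_adjoin_left`,
  `restrictScalars`), so `finrank L⟮s⟯ F = finrank k⟮s⟯ F`
  (e.g. `Algebra.finrank_eq_of_equiv_equiv` with the identity of `F`, or rewrite along
  `(L⟮s⟯).restrictScalars k = k⟮s⟯`).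
-/

set_option autoImplicit false

namespace Fermat.Agent.Lib.RR

open IntermediateField Polynomial

variable {k F : Type*} [Field k] [Field F] [Algebra k F] (p : ℕ) [Fact p.Prime] [CharP k p]

theorem notMem_adjoin_pow {s : F} (hs : Transcendental k s) : s ∉ k⟮s ^ p⟯ := by
  intro h
  have hp : p.Prime := Fact.out
  obtain ⟨f, g, hfg⟩ := (mem_adjoin_simple_iff k s).1 h
  have hs0 : s ≠ 0 := by
    rintro rfl
    exact hs isAlgebraic_zero
  have hg : aeval (s ^ p) g ≠ 0 := by
    intro h0
    rw [h0, div_zero] at hfg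
    exact hs0 hfg
  have h1 : s * aeval (s ^ p) g = aeval (s ^ p) f := by
    rw [eq_div_iff hg] at hfg
    exact hfg
  have h2 : aeval s (X * expand k p g - expand k p f) = 0 := by
    rw [map_sub, map_mul, aeval_X, expand_aeval, expand_aeval, h1, sub_self]
  have h3 : X * expand k p g - expand k p f = 0 := by
    by_contra hne
    exact hs ⟨_, hne, h2⟩
  have hp0 : ((p : ℕ) : k[X]) = 0 := by
    rw [← map_natCast (C : k →+* k[X]), CharP.cast_eq_zero k p, map_zero]
  have h4 := congrArg derivative h3
  rw [derivative_sub, derivative_mul, derivative_X, one_mul, derivative_expand, derivative_expand,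
    hp0, derivative_zero] at h4
  simp only [zero_mul, mul_zero, add_zero, sub_zero] at h4
  rw [expand_eq_zero hp.pos] at h4
  rw [h4, map_zero] at hg
  exact hg rfl

theorem finrank_adjoin_pow {s : F} (hs : Transcendental k s) :
    Module.finrank k⟮s ^ p⟯ F = p * Module.finrank k⟮s⟯ F := by
  have hp : p.Prime := Fact.out
  have : CharP F p := charP_of_injective_algebraMap (algebraMap k F).injective p
  set L := k⟮s ^ p⟯ with hL
  let a : L := ⟨s ^ p, mem_adjoin_simple_self k (s ^ p)⟩
  have hirr : Irreducible (X ^ p - C a : L[X]) := by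
    apply X_pow_sub_C_irreducible_of_prime hp
    intro b hb
    have h1 : (b : F) ^ p = s ^ p := congrArg Subtype.val hb
    have h2 : (b : F) = s := frobenius_inj F p h1
    have h3 : s ∈ L := by rw [← h2]; exact b.2
    exact notMem_adjoin_pow p hs h3
  have hroot : aeval s (X ^ p - C a : L[X]) = 0 := by
    simp only [map_sub, map_pow, aeval_X, aeval_C]
    exact sub_self _
  have hmonic : (X ^ p - C a : L[X]).Monic := monic_X_pow_sub_C a hp.ne_zero
  have hmin : minpoly L s = X ^ p - C a := (minpoly.eq_of_irreducible_of_monic hirr hroot hmonic).symm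
  have hint : IsIntegral L s := ⟨_, hmonic, hroot⟩
  have h1 : Module.finrank L L⟮s⟯ = p := by
    rw [adjoin.finrank hint, hmin, natDegree_X_pow_sub_C]
  have h2 := Module.finrank_mul_finrank L L⟮s⟯ F
  have h3 : (L⟮s⟯).restrictScalars k = k⟮s⟯ := by
    rw [hL, adjoin_adjoin_left]
    apply le_antisymm
    · rw [adjoin_le_iff]
      rintro x (hx | hx)
      · rw [Set.mem_singleton_iff] at hx
        rw [hx]
        exact pow_mem (mem_adjoin_simple_self k s) p
      · rw [Set.mem_singleton_iff] at hx
        rw [hx]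
        exact mem_adjoin_simple_self k s
    · exact adjoin.mono k _ _ (by simp)
  have h4 : Module.finrank L⟮s⟯ F = Module.finrank k⟮s⟯ F := by
    rw [← h3]
    rfl
  rw [← h2, h1, h4]

end Fermat.Agent.Lib.RR
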