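import Mathlib

/-!
# Riemann in characteristic `p`, node N3 (pure Mathlib): `[F : F^p] ≤ p`
Architect + owner: helper183.

`k` perfect of characteristic `p`, `F / k(x)` separable.  Put `E := (frobenius F p).fieldRange`
(`= F^p`, a `Subfield F`; `F` is an `E`-algebra).

* `frob_adjoin_eq_top`: `E⟮x⟯ = ⊤`.  Mathlib:
  `IntermediateField.adjoin_eq_adjoin_pow_expChar_of_isSeparable' k⟮x⟯ F Set.univ p` gives
  `⊤ = adjoin k⟮x⟯ (range (· ^ p))`.  The subfield `(E⟮x⟯).toSubfield` contains `k`
  (`k` perfect: `c = d ^ p`, so `algebraMap k F c = (algebraMap k F d) ^ p ∈ E`), contains `x`, hence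
  contains `k⟮x⟯` (view it as an `IntermediateField k F` and use `adjoin_simple_le_iff`), and contains
  all `p`-th powers; so it contains `adjoin k⟮x⟯ (range (· ^ p)) = ⊤`.
* `frob_adjoin_eq_top_of_notMem`: for `t ∉ E`, `E⟮t⟯ = ⊤`.  `x` is a root of the monic polynomial
  `X ^ p - C ⟨x ^ p, _⟩ : E[X]`, so `finrank E F = finrank E E⟮x⟯ = (minpoly E x).natDegree ≤ p`
  (`IntermediateField.adjoin.finrank`, `minpoly.min`/`natDegree_le_of_dvd`), in particular `F / E` is
  finite.  `X ^ p - C ⟨t ^ p, _⟩` is irreducible over `E` (`X_pow_sub_C_irreducible_of_prime`: if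
  `b ^ p = t ^ p` with `b ∈ E` then `b = t` by `frobenius_inj`), so it is `minpoly E t` and
  `finrank E E⟮t⟯ = p ≥ finrank E F`; conclude by `IntermediateField.eq_of_le_of_finrank_le`-type
  lemmas.
* `adjoin_pow_eq_top_of_notMem`: translation: `adjoin k⟮t⟯ (range (· ^ p))`, as a subfield, contains
  `E` and `t`, hence `E⟮t⟯ = ⊤`.
-/

set_option autoImplicit false

namespace Fermat.Agent.Lib.RR

open IntermediateField Polynomial

variable {k F : Type*} [Field k] [Field F] [Algebra k F] (p : ℕ) [Fact p.Prime] [CharP k p]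
  [CharP F p] [PerfectField k]

omit [Fact p.Prime] [CharP k p] [PerfectField k] [Field k] [Algebra k F] in
theorem pow_mem_frobRange [Fact p.Prime] (a : F) : a ^ p ∈ (frobenius F p).fieldRange :=
  ⟨a, rfl⟩

theorem algebraMap_mem_frobRange (c : k) : algebraMap k F c ∈ (frobenius F p).fieldRange := by
  have : ExpChar k p := ExpChar.prime Fact.out
  have : PerfectRing k p := PerfectField.toPerfectRing p
  obtain ⟨d, hd⟩ := surjective_frobenius k p c
  refine ⟨algebraMap k F d, ?_⟩
  rw [← hd, frobenius_def, frobenius_def, map_pow]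

/-- a subfield of `F` containing `F^p`, as an intermediate field of `F / k` -/
def ofFrobLE (S : Subfield F) (hS : (frobenius F p).fieldRange ≤ S) : IntermediateField k F :=
  { S with
    algebraMap_mem' := fun c => hS (algebraMap_mem_frobRange p c) }

theorem frob_adjoin_eq_top (x : F) [Algebra.IsSeparable k⟮x⟯ F] :
    ((frobenius F p).fieldRange)⟮x⟯ = ⊤ := by
  have : CharP k⟮x⟯ p := charP_of_injective_algebraMap (algebraMap k k⟮x⟯).injective p
  have : ExpChar k⟮x⟯ p := ExpChar.prime Fact.out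
  have h := adjoin_eq_adjoin_pow_expChar_of_isSeparable' k⟮x⟯ F Set.univ p
  rw [adjoin_univ] at h
  set E := (frobenius F p).fieldRange with hE
  have hES : E ≤ (E⟮x⟯).toSubfield := fun a ha => (E⟮x⟯).algebraMap_mem ⟨a, ha⟩
  -- `k⟮x⟯ ≤ E⟮x⟯`
  have h1 : k⟮x⟯ ≤ ofFrobLE (k := k) p (E⟮x⟯).toSubfield hES := by
    rw [adjoin_simple_le_iff]
    exact mem_adjoin_simple_self E x
  -- view `E⟮x⟯` as an intermediate field over `k⟮x⟯`
  let M : IntermediateField k⟮x⟯ F :=
    { (E⟮x⟯).toSubfield with
      algebraMap_mem' := fun c => h1 c.2 }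
  have h2 : adjoin k⟮x⟯ ((fun a : F => a ^ p) '' Set.univ) ≤ M := by
    rw [adjoin_le_iff]
    rintro _ ⟨a, -, rfl⟩
    exact hES (pow_mem_frobRange p a)
  rw [← h] at h2
  rw [eq_top_iff]
  intro a _
  exact h2 (mem_top (x := a))


omit [Field k] [Algebra k F] [CharP k p] [PerfectField k] in
theorem frob_isIntegral (x : F) : IsIntegral (frobenius F p).fieldRange x ∧
    (minpoly (frobenius F p).fieldRange x).natDegree ≤ p := by
  have hp : p.Prime := Fact.out
  set E := (frobenius F p).fieldRange with hE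
  let a : E := ⟨x ^ p, pow_mem_frobRange p x⟩
  have hroot : aeval x (X ^ p - C a : E[X]) = 0 := by
    simp only [map_sub, map_pow, aeval_X, aeval_C]
    exact sub_self _
  have hmonic : (X ^ p - C a : E[X]).Monic := monic_X_pow_sub_C a hp.ne_zero
  refine ⟨⟨_, hmonic, hroot⟩, ?_⟩
  have := natDegree_le_of_dvd (minpoly.dvd E x hroot) hmonic.ne_zero
  rwa [natDegree_X_pow_sub_C] at this

omit [Field k] [Algebra k F] [CharP k p] [PerfectField k] in
theorem frob_natDegree_minpoly (t : F) (ht : ∀ s : F, t ≠ s ^ p) :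
    (minpoly (frobenius F p).fieldRange t).natDegree = p := by
  have hp : p.Prime := Fact.out
  set E := (frobenius F p).fieldRange with hE
  let a : E := ⟨t ^ p, pow_mem_frobRange p t⟩
  have hroot : aeval t (X ^ p - C a : E[X]) = 0 := by
    simp only [map_sub, map_pow, aeval_X, aeval_C]
    exact sub_self _
  have hmonic : (X ^ p - C a : E[X]).Monic := monic_X_pow_sub_C a hp.ne_zero
  have hirr : Irreducible (X ^ p - C a : E[X]) := by
    apply X_pow_sub_C_irreducible_of_prime hp
    intro b hb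
    have h1 : (b : F) ^ p = t ^ p := congrArg Subtype.val hb
    have h2 : (b : F) = t := frobenius_inj F p h1
    obtain ⟨s, hs⟩ := b.2
    exact ht s (by rw [← h2, ← hs, frobenius_def])
  rw [← minpoly.eq_of_irreducible_of_monic hirr hroot hmonic, natDegree_X_pow_sub_C]

theorem frob_adjoin_eq_top_of_notMem (x : F) [Algebra.IsSeparable k⟮x⟯ F] (t : F)
    (ht : ∀ s : F, t ≠ s ^ p) : ((frobenius F p).fieldRange)⟮t⟯ = ⊤ := by
  have hx := frob_adjoin_eq_top (k := k) p x
  set E := (frobenius F p).fieldRange with hE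
  obtain ⟨hxi, hxd⟩ := frob_isIntegral p x
  obtain ⟨hti, -⟩ := frob_isIntegral p t
  have h1 : Module.finrank E F = (minpoly E x).natDegree := by
    rw [← adjoin.finrank hxi, hx, finrank_top']
  have hfin : FiniteDimensional E F :=
    Module.finite_of_finrank_pos (by rw [h1]; exact minpoly.natDegree_pos hxi)
  apply eq_of_le_of_finrank_le le_top
  rw [finrank_top', h1, adjoin.finrank hti, frob_natDegree_minpoly p t ht]
  exact hxd

theorem adjoin_pow_eq_top_of_notMem (x : F) [Algebra.IsSeparable k⟮x⟯ F] (t : F)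
    (ht : ∀ s : F, t ≠ s ^ p) : adjoin k⟮t⟯ (Set.range fun a : F => a ^ p) = ⊤ := by
  have h := frob_adjoin_eq_top_of_notMem (k := k) p x t ht
  set E := (frobenius F p).fieldRange with hE
  set S := adjoin k⟮t⟯ (Set.range fun a : F => a ^ p) with hS
  have hES : ∀ a : E, (a : F) ∈ S := by
    rintro ⟨_, b, rfl⟩
    exact subset_adjoin k⟮t⟯ _ ⟨b, rfl⟩
  let M : IntermediateField E F :=
    { S.toSubfield with
      algebraMap_mem' := fun c => hES c }
  have h1 : E⟮t⟯ ≤ M := by
    rw [adjoin_simple_le_iff]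
    exact S.algebraMap_mem ⟨t, mem_adjoin_simple_self k t⟩
  rw [h] at h1
  rw [eq_top_iff]
  intro a _
  exact h1 (mem_top (x := a))

end Fermat.Agent.Lib.RR
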