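import Mathlib
import Fermat.Agent.S24.FFSum

/-!
# Riemann in characteristic `p`, node N1: the fundamental identity for a separating element
Copy of `Fermat.Agent.S24.FF.exists_finset_ord_pos` (helper264) with `CharZero K` replaced by
separability of `F / K(t)`.  Owner: helper183.
-/

set_option autoImplicit false
set_option linter.style.haveILetI false

noncomputable section

namespace Fermat.Agent.Lib.RR

open AlgebraicCurve IsDedekindDomain WithZero IntermediateField Polynomial Fermat.Agent.S24.FF
open scoped IntermediateField.algebraAdjoinAdjoin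

variable {K F : Type*} [Field K] [Field F] [Algebra K F] [IsAlgClosed K] [IsFF1 K F]

/-- **Fundamental identity** for the zeros of a separating transcendental element. -/
theorem exists_finset_ord_pos_of_isSeparable (t : F) (ht : Transcendental K t)
    [Algebra.IsSeparable K⟮t⟯ F] :
    ∃ s : Finset (Place K F), (∀ v, v ∈ s ↔ 0 < v.ord t) ∧
      ∑ v ∈ s, v.ord t = (Module.finrank K⟮t⟯ F : ℤ) := by
  haveI : FiniteDimensional K⟮t⟯ F := IsFF1.finite t ht
  haveI := isPrincipalIdealRing_adjoin t ht
  haveI : IsDedekindDomain (integralClosure (Algebra.adjoin K {t}) F) :=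
    integralClosure.isDedekindDomain (Algebra.adjoin K {t}) K⟮t⟯ F
  haveI : IsFractionRing (integralClosure (Algebra.adjoin K {t}) F) F :=
    integralClosure.isFractionRing_of_finite_extension K⟮t⟯ F
  haveI : Module.Finite (Algebra.adjoin K {t}) (integralClosure (Algebra.adjoin K {t}) F) :=
    IsIntegralClosure.finite (Algebra.adjoin K {t}) K⟮t⟯ F _
  let t' : Algebra.adjoin K {t} := ⟨t, Algebra.self_mem_adjoin_singleton K t⟩
  have ht0 : t ≠ 0 := by
    rintro rfl
    exact ht isAlgebraic_zero
  have ht'0 : t' ≠ 0 := fun h => ht0 (congrArg Subtype.val h)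
  have hprime : Prime t' := by
    have h1 : Polynomial.algEquivOfTranscendental K t ht X = t' := by simp [t']
    rw [← h1]
    exact (MulEquiv.prime_iff (Polynomial.algEquivOfTranscendental K t ht).toMulEquiv).mpr
      Polynomial.prime_X
  have hp0 : Ideal.span {t'} ≠ ⊥ := by
    rw [Ne, Ideal.span_singleton_eq_bot]; exact ht'0
  have hpmax : (Ideal.span {t'}).IsMaximal :=
    ((Ideal.span_singleton_prime ht'0).mpr hprime).isMaximal hp0
  obtain ⟨s, hs, hsum⟩ := exists_finset_ord_pos_aux (K := K) (F := F)
    (integralClosure (Algebra.adjoin K {t}) F) K⟮t⟯ t' ht'0 hpmax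
  refine ⟨s, fun v => ?_, hsum⟩
  rw [hs]
  constructor
  · exact fun h => h.2
  · intro h
    refine ⟨fun b => ?_, h⟩
    exact mem_of_isIntegral v _ (adjoin_le_of_ord_nonneg v (le_of_lt h)) b.2

end Fermat.Agent.Lib.RR
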