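import Mathlib

/-!
# Riemann in characteristic `p`, node N2 (pure Mathlib): a separability criterion
`E / L` finite, `E = L(E^q)`  ⟹  `E / L` separable.   Architect + owner: helper183.

Proof.  Let `M := separableClosure L E`.  `E / M` is purely inseparable
(`separableClosure.isPurelyInseparable`) and finite, so it has an exponent
(`IsPurelyInseparable.hasExponent_of_finiteDimensional`, `IsPurelyInseparable.exponent_def'`):
there is `n` with `a ^ q ^ n ∈ M` for all `a : E`.
Claim: `adjoin L (range (· ^ q ^ n)) = ⊤` for all `n` (`adjoin_pow_pow_eq_top`).  Induction on `n`: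
let `S n := adjoin L (range (· ^ q ^ n))`.  The set `{a | a ^ q ∈ S (n+1)}` is (the carrier of) an
intermediate field of `E / L` (`(a+b)^q = a^q+b^q` by `add_pow_expChar`; it contains `L` since
`(algebraMap c)^q = algebraMap (c^q)`), and it contains `range (· ^ q ^ n)`
(`(b^(q^n))^q = b^(q^(n+1))`), so it contains `S n = ⊤`.  Hence `range (· ^ q) ⊆ S (n+1)` and
`⊤ = adjoin L (range (· ^ q)) ≤ S (n+1)`.
Finally `⊤ = adjoin L (range (· ^ q ^ n)) ≤ M`, so `M = ⊤`, and `separableClosure.eq_top_iff`.
-/

set_option autoImplicit false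

namespace Fermat.Agent.Lib.RR

open IntermediateField

/-- the intermediate field of elements whose `q`-th power lies in `S` -/
def powComap {L E : Type*} [Field L] [Field E] [Algebra L E] (q : ℕ) [ExpChar L q]
    (S : IntermediateField L E) : IntermediateField L E :=
  haveI : ExpChar E q := expChar_of_injective_algebraMap (algebraMap L E).injective q
  { carrier := {a | a ^ q ∈ S}
    mul_mem' := fun {a b} ha hb => by
      change (a * b) ^ q ∈ S
      rw [mul_pow]; exact mul_mem ha hb
    add_mem' := fun {a b} ha hb => by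
      change (a + b) ^ q ∈ S
      rw [add_pow_expChar]; exact add_mem ha hb
    algebraMap_mem' := fun c => by
      change (algebraMap L E c) ^ q ∈ S
      rw [← map_pow]; exact S.algebraMap_mem _
    inv_mem' := fun a ha => by
      change (a⁻¹) ^ q ∈ S
      rw [inv_pow]; exact inv_mem ha }

theorem adjoin_pow_pow_eq_top {L E : Type*} [Field L] [Field E] [Algebra L E]
    (q : ℕ) [ExpChar L q] (h : adjoin L (Set.range fun a : E => a ^ q) = ⊤) (n : ℕ) :
    adjoin L (Set.range fun a : E => a ^ q ^ n) = ⊤ := by
  induction n with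
  | zero =>
    rw [eq_top_iff]
    intro a _
    exact subset_adjoin L _ ⟨a, by simp⟩
  | succ n ih =>
    have h1 : adjoin L (Set.range fun a : E => a ^ q ^ n) ≤
        powComap q (adjoin L (Set.range fun a : E => a ^ q ^ (n + 1))) := by
      rw [adjoin_le_iff]
      rintro _ ⟨b, rfl⟩
      change (b ^ q ^ n) ^ q ∈ adjoin L (Set.range fun a : E => a ^ q ^ (n + 1))
      rw [← pow_mul, ← pow_succ]
      exact subset_adjoin L _ ⟨b, rfl⟩
    rw [ih] at h1
    rw [eq_top_iff, ← h, adjoin_le_iff]
    rintro _ ⟨b, rfl⟩
    exact h1 (mem_top (x := b))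

theorem isSeparable_of_adjoin_pow_eq_top {L E : Type*} [Field L] [Field E] [Algebra L E]
    [FiniteDimensional L E] (q : ℕ) [ExpChar L q]
    (h : adjoin L (Set.range fun a : E => a ^ q) = ⊤) : Algebra.IsSeparable L E := by
  rw [← separableClosure.eq_top_iff]
  have : ExpChar (separableClosure L E) q :=
    expChar_of_injective_algebraMap (algebraMap L (separableClosure L E)).injective q
  have hex := IsPurelyInseparable.exponent_def' (K := separableClosure L E) (L := E) q
  rw [eq_top_iff, ← adjoin_pow_pow_eq_top q h (IsPurelyInseparable.exponent (separableClosure L E) E),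
    adjoin_le_iff]
  rintro _ ⟨b, rfl⟩
  obtain ⟨y, hy⟩ := hex b
  change b ^ q ^ _ ∈ separableClosure L E
  rw [← hy]
  exact y.2

end Fermat.Agent.Lib.RR
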